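import Fermat.Agent.NewtonPuiseux.Roots

/-!
# The field of Puiseux series

The Hahn series with rational exponents of bounded denominators; for `K` algebraically closed of
characteristic zero it is an algebraic closure of `K((t))`.
-/

set_option autoImplicit false

noncomputable section

open Polynomial

namespace Fermat.Agent.NewtonPuiseux

variable {K : Type*} [Field K]

variable (K) in
/-- Hahn series over `ℚ` whose exponents have a common denominator. -/
def puiseuxField : Subfield (HahnSeries ℚ K) :=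
  ⨆ m : ℕ+, (rootEmbedding m).fieldRange

theorem fieldRange_le_mul (m n : ℕ+) :
    (rootEmbedding (K := K) m).fieldRange ≤ (rootEmbedding (m * n)).fieldRange := by
  rintro _ ⟨x, rfl⟩
  exact ⟨expandLaurent n x, rootEmbedding_expandLaurent m n x⟩

theorem directed_fieldRange :
    Directed (· ≤ ·) fun m : ℕ+ => (rootEmbedding (K := K) m).fieldRange := fun m n =>
  ⟨m * n, fieldRange_le_mul m n, mul_comm n m ▸ fieldRange_le_mul n m⟩

theorem mem_puiseuxField_iff_range {z : HahnSeries ℚ K} :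
    z ∈ puiseuxField K ↔ ∃ m : ℕ+, ∃ x, rootEmbedding m x = z :=
  (Subfield.mem_iSup_of_directed directed_fieldRange).trans
    (exists_congr fun _ => RingHom.mem_fieldRange)

/-- Membership, spelled out. -/
theorem mem_puiseuxField_iff {z : HahnSeries ℚ K} :
    z ∈ puiseuxField K ↔ ∃ m : ℕ+, ∀ r ∈ z.support, ∃ j : ℤ, r = j / ((m : ℕ) : ℚ) := by
  rw [mem_puiseuxField_iff_range]
  refine exists_congr fun m => ⟨?_, fun h => ?_⟩
  · rintro ⟨x, rfl⟩ r hr
    obtain ⟨j, -, rfl⟩ := HahnSeries.support_embDomain_subset hr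
    exact ⟨j, (div_eq_mul_inv _ _).symm⟩
  · have hm : (0 : ℚ) < (m : ℕ) := Nat.cast_pos.2 m.pos
    have hbdd : BddBelow (Function.support fun j : ℤ => z.coeff (j * ((m : ℕ) : ℚ)⁻¹)) := by
      refine ⟨⌊z.order * (m : ℕ)⌋, fun j hj => ?_⟩
      have h1 := HahnSeries.order_le_of_coeff_ne_zero hj
      rw [← div_eq_mul_inv, le_div_iff₀ hm] at h1
      exact Int.floor_le_iff.2 (h1.trans_lt (lt_add_one _))
    refine ⟨HahnSeries.ofSuppBddBelow _ hbdd, ?_⟩
    ext r
    by_cases hr : ∃ j : ℤ, r = j / ((m : ℕ) : ℚ)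
    · obtain ⟨j, rfl⟩ := hr
      rw [div_eq_mul_inv, coeff_rootEmbedding, HahnSeries.coeff_ofSuppBddBelow]
    · rw [not_not.1 (mt (h r) hr)]
      exact HahnSeries.embDomain_of_notMem_range fun ⟨j, hj⟩ =>
        hr ⟨j, (hj.symm.trans (div_eq_mul_inv _ _).symm)⟩

/-- `t ↦ t ^ (1 / m)`, into the Puiseux series. -/
def puiseuxEmbedding (m : ℕ+) : LaurentSeries K →+* puiseuxField K :=
  (rootEmbedding m).codRestrict _ fun x => mem_puiseuxField_iff_range.2 ⟨m, x, rfl⟩

instance algebraPuiseux : Algebra (LaurentSeries K) (puiseuxField K) :=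
  (puiseuxEmbedding 1).toAlgebra

theorem algebraMap_puiseux (x : LaurentSeries K) :
    algebraMap (LaurentSeries K) (puiseuxField K) x = puiseuxEmbedding 1 x :=
  rfl

theorem puiseuxEmbedding_expand (m q : ℕ+) (x : LaurentSeries K) :
    puiseuxEmbedding (m * q) (expandLaurent q x) = puiseuxEmbedding m x :=
  Subtype.ext (rootEmbedding_expandLaurent m q x)

theorem exists_puiseuxEmbedding (z : puiseuxField K) : ∃ m x, puiseuxEmbedding m x = z := by
  obtain ⟨m, x, h⟩ := mem_puiseuxField_iff_range.1 z.2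
  exact ⟨m, x, Subtype.ext h⟩

theorem range_puiseuxEmbedding_mul {m n : ℕ+} {z : puiseuxField K}
    (h : z ∈ Set.range (puiseuxEmbedding m)) :
    z ∈ Set.range (puiseuxEmbedding (K := K) (m * n)) := by
  obtain ⟨x, rfl⟩ := h
  exact ⟨_, puiseuxEmbedding_expand m n x⟩

/-- Finitely many series have a common denominator. -/
theorem exists_common {ι : Type*} (s : Finset ι) (z : ι → puiseuxField K) :
    ∃ m : ℕ+, ∀ i ∈ s, z i ∈ Set.range (puiseuxEmbedding m) := by
  induction s using Finset.cons_induction with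
  | empty => exact ⟨1, by simp⟩
  | cons a s has ih =>
    obtain ⟨m, hm⟩ := ih
    obtain ⟨m', x, hx⟩ := exists_puiseuxEmbedding (z a)
    refine ⟨m * m', fun i hi => ?_⟩
    rcases Finset.mem_cons.1 hi with rfl | hi
    · exact mul_comm m' m ▸ range_puiseuxEmbedding_mul ⟨x, hx⟩
    · exact range_puiseuxEmbedding_mul (hm i hi)

theorem isAlgClosed_puiseuxField [IsAlgClosed K] [CharZero K] :
    IsAlgClosed (puiseuxField K) := by
  refine IsAlgClosed.of_exists_root _ fun p hp hirr => ?_
  obtain ⟨M, hM⟩ := exists_common (Finset.range (p.natDegree + 1)) p.coeff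
  have hl : p ∈ lifts (puiseuxEmbedding (K := K) M) := (lifts_iff_coeff_lifts p).2 fun i => by
    rcases lt_or_ge i (p.natDegree + 1) with hi | hi
    · exact hM i (Finset.mem_range.2 hi)
    · exact ⟨0, by rw [map_zero, coeff_eq_zero_of_natDegree_lt (by omega)]⟩
  obtain ⟨f, hf, hfd, hfm⟩ := lifts_and_degree_eq_and_monic hl hp
  obtain ⟨q, x, hx⟩ := exists_root_expand f hfm (by
    rw [natDegree_eq_of_degree_eq hfd]; exact hirr.natDegree_pos)
  refine ⟨puiseuxEmbedding (M * q) x, ?_⟩
  have h : (puiseuxEmbedding (K := K) (M * q)).comp (expandLaurent q) = puiseuxEmbedding M :=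
    RingHom.ext (puiseuxEmbedding_expand M q)
  rw [← hf, ← h, ← map_map]
  exact (hx.map : IsRoot ((f.map (expandLaurent q)).map (puiseuxEmbedding (M * q))) _).eq_zero

/-- The root `t ^ (1 / m)`. -/
def rootVar (m : ℕ+) : puiseuxField K :=
  puiseuxEmbedding m (HahnSeries.single 1 1)

theorem rootVar_pow (m : ℕ+) : (rootVar (K := K) m) ^ (m : ℕ) =
    algebraMap (LaurentSeries K) (puiseuxField K) (HahnSeries.single 1 1) := by
  rw [rootVar, ← map_pow, algebraMap_puiseux, ← puiseuxEmbedding_expand 1 m (HahnSeries.single 1 1),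
    one_mul, expandLaurent_single, HahnSeries.single_pow, one_pow, nsmul_one, mul_one]

theorem isIntegral_rootVar (m : ℕ+) : IsIntegral (LaurentSeries K) (rootVar (K := K) m) :=
  IsIntegral.of_pow m.pos (rootVar_pow (K := K) m ▸ isIntegral_algebraMap)

/-- Sorting the exponents by their classes modulo `m`. -/
theorem exists_digits (m : ℕ+) (x : LaurentSeries K) :
    ∃ c : ℕ → LaurentSeries K,
      x = ∑ j ∈ Finset.range m, HahnSeries.single (j : ℤ) 1 * expandLaurent m (c j) := by
  have hm : (0 : ℤ) < (m : ℕ) := Int.natCast_pos.2 m.pos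
  have hbdd : ∀ j : ℕ, BddBelow (Function.support fun l : ℤ => x.coeff ((m : ℕ) * l + j)) :=
    fun j => ⟨-(|x.order| + j), fun l hl => by
      have h1 := HahnSeries.order_le_of_coeff_ne_zero hl
      rcases le_or_gt 0 l with h | h
      · linarith [abs_nonneg x.order, Int.natCast_nonneg j]
      · nlinarith [neg_abs_le x.order]⟩
  refine ⟨fun j => HahnSeries.ofSuppBddBelow _ (hbdd j), ?_⟩
  ext k
  rw [HahnSeries.coeff_sum]
  set j₀ := (k % ((m : ℕ) : ℤ)).toNat
  have hj₀ : (j₀ : ℤ) = k % ((m : ℕ) : ℤ) := Int.toNat_of_nonneg (Int.emod_nonneg _ hm.ne')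
  have hj₀m : j₀ < (m : ℕ) := by
    have := Int.emod_lt_of_pos k hm
    omega
  have hk : k = (m : ℕ) * (k / ((m : ℕ) : ℤ)) + j₀ := by rw [hj₀, Int.mul_ediv_add_emod]
  rw [Finset.sum_eq_single_of_mem j₀ (Finset.mem_range.2 hj₀m) fun j hj hne => ?_]
  · conv_rhs => rw [hk]
    rw [HahnSeries.coeff_single_mul_add, one_mul, coeff_expandLaurent_mul,
      HahnSeries.coeff_ofSuppBddBelow, ← hk]
  · rw [show k = (k - (j : ℤ)) + j by ring, HahnSeries.coeff_single_mul_add, one_mul,
      coeff_expandLaurent_of_not_dvd]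
    intro hdvd
    rw [Finset.mem_range] at hj
    refine hne ?_
    have h1 := Int.emod_emod_of_dvd k (dvd_refl ((m : ℕ) : ℤ))
    have h2 : k % ((m : ℕ) : ℤ) = (j : ℤ) % ((m : ℕ) : ℤ) :=
      Int.emod_eq_emod_iff_emod_sub_eq_zero.2 (Int.emod_eq_zero_of_dvd hdvd)
    rw [Int.emod_eq_of_lt (Int.natCast_nonneg j) (by exact_mod_cast hj), ← hj₀] at h2
    omega

theorem puiseuxEmbedding_digits (m : ℕ+) (c : ℕ → LaurentSeries K) :
    puiseuxEmbedding m (∑ j ∈ Finset.range m, HahnSeries.single (j : ℤ) 1 * expandLaurent m (c j)) =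
      ∑ j ∈ Finset.range m,
        algebraMap (LaurentSeries K) (puiseuxField K) (c j) * rootVar m ^ j := by
  rw [map_sum]
  refine Finset.sum_congr rfl fun j _ => ?_
  rw [map_mul, algebraMap_puiseux, ← puiseuxEmbedding_expand 1 m (c j), one_mul, rootVar,
    ← map_pow, HahnSeries.single_pow, one_pow, nsmul_one, mul_comm]

theorem isAlgebraic_puiseuxField : Algebra.IsAlgebraic (LaurentSeries K) (puiseuxField K) :=
  ⟨fun z => IsIntegral.isAlgebraic (by
    obtain ⟨m, x, rfl⟩ := exists_puiseuxEmbedding z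
    obtain ⟨c, rfl⟩ := exists_digits m x
    rw [puiseuxEmbedding_digits]
    exact IsIntegral.sum _ fun j _ =>
      isIntegral_algebraMap.mul ((isIntegral_rootVar m).pow j))⟩

theorem isAlgClosure_puiseuxField [IsAlgClosed K] [CharZero K] :
    IsAlgClosure (LaurentSeries K) (puiseuxField K) :=
  ⟨isAlgClosed_puiseuxField, isAlgebraic_puiseuxField⟩

end Fermat.Agent.NewtonPuiseux
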