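import Fermat.Agent.NewtonPuiseux.PuiseuxField

/-!
# Finite extensions of Laurent series fields

For `K` algebraically closed of characteristic zero, `K((t ^ (1 / n)))` is the only extension of
`K((t))` of degree `n`; all finite extensions are cyclic.
-/

set_option autoImplicit false

noncomputable section

open Polynomial IntermediateField

namespace Fermat.Agent.NewtonPuiseux

variable {K : Type*} [Field K]

/-- `K((t ^ (1 / m)))` inside the Puiseux series. -/
def rootField (m : ℕ+) : IntermediateField (LaurentSeries K) (puiseuxField K) :=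
  (LaurentSeries K)⟮rootVar m⟯

theorem rootField_le_mul (n k : ℕ+) : rootField (K := K) n ≤ rootField (n * k) := by
  rw [rootField, adjoin_simple_le_iff]
  have : rootVar (K := K) n = rootVar (n * k) ^ (k : ℕ) := by
    rw [rootVar, rootVar, ← map_pow, ← puiseuxEmbedding_expand n k (HahnSeries.single 1 1),
      expandLaurent_single, HahnSeries.single_pow, one_pow, nsmul_one, mul_one]
  rw [this]
  exact pow_mem (mem_adjoin_simple_self _ _) _

theorem puiseuxEmbedding_mem_rootField (m : ℕ+) (x : LaurentSeries K) :
    puiseuxEmbedding m x ∈ rootField m := by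
  obtain ⟨c, rfl⟩ := exists_digits m x
  rw [puiseuxEmbedding_digits]
  exact sum_mem fun j _ =>
    mul_mem (IntermediateField.algebraMap_mem _ _) (pow_mem (mem_adjoin_simple_self _ _) j)

/-- **Degree**: `[K((t ^ (1/m))) : K((t))] = m`. -/
theorem minpoly_rootVar (m : ℕ+) : minpoly (LaurentSeries K) (rootVar (K := K) m) =
    X ^ (m : ℕ) - C (HahnSeries.single 1 1) := by
  set p := minpoly (LaurentSeries K) (rootVar (K := K) m)
  have hint := isIntegral_rootVar (K := K) m
  have hmon : p.Monic := minpoly.monic hint
  have haev : aeval (rootVar (K := K) m)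
      (X ^ (m : ℕ) - C (HahnSeries.single 1 1) : (LaurentSeries K)[X]) = 0 := by
    rw [map_sub, map_pow, aeval_X, aeval_C, rootVar_pow, sub_self]
  refine (eq_of_monic_of_dvd_of_natDegree_le hmon (monic_X_pow_sub_C _ m.ne_zero)
    (minpoly.dvd _ _ haev) ?_).symm
  rw [natDegree_X_pow_sub_C]
  by_contra! hlt
  -- a shorter relation is impossible: its exponents lie in different classes modulo `m`
  set c : ℕ → LaurentSeries K := fun j => p.coeff j
  have hsum : puiseuxEmbedding m (∑ j ∈ Finset.range m,
      HahnSeries.single (j : ℤ) 1 * expandLaurent m (c j)) = 0 := by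
    rw [puiseuxEmbedding_digits]
    refine Eq.trans ?_ (minpoly.aeval (LaurentSeries K) (rootVar (K := K) m))
    rw [aeval_eq_sum_range' hlt]
    simp only [c, Algebra.smul_def]
  rw [map_eq_zero_iff _ (puiseuxEmbedding (K := K) m).injective] at hsum
  have h1 : (∑ j ∈ Finset.range m, HahnSeries.single (j : ℤ) 1 * expandLaurent m (c j)).coeff
      (p.natDegree : ℤ) = 1 := by
    rw [HahnSeries.coeff_sum, Finset.sum_eq_single_of_mem p.natDegree (Finset.mem_range.2 hlt)
      fun j hj hne => ?_]
    · rw [show (c p.natDegree) = 1 from hmon.coeff_natDegree, map_one (expandLaurent m), mul_one,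
        HahnSeries.coeff_single_same]
    · rw [show (p.natDegree : ℤ) = ((p.natDegree : ℤ) - j) + j by ring,
        HahnSeries.coeff_single_mul_add, one_mul, coeff_expandLaurent_of_not_dvd]
      intro hdvd
      rw [Finset.mem_range] at hj
      refine hne ?_
      have := Int.eq_zero_of_dvd_of_natAbs_lt_natAbs hdvd (by
        rw [Int.natAbs_natCast]; omega)
      omega
  rw [hsum, HahnSeries.coeff_zero] at h1
  exact zero_ne_one h1

theorem finrank_rootField (m : ℕ+) :
    Module.finrank (LaurentSeries K) (rootField (K := K) m) = m := by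
  rw [rootField, IntermediateField.adjoin.finrank (isIntegral_rootVar m), minpoly_rootVar,
    natDegree_X_pow_sub_C]

instance finiteDimensional_rootField (m : ℕ+) :
    FiniteDimensional (LaurentSeries K) (rootField (K := K) m) :=
  IntermediateField.adjoin.finiteDimensional (isIntegral_rootVar m)

/-- `K((t ^ (1/m))) / K((t))` is cyclic. -/
theorem isGalois_rootField [IsAlgClosed K] [CharZero K] (m : ℕ+) :
    IsGalois (LaurentSeries K) (rootField (K := K) m) ∧
      IsCyclic (rootField (K := K) m ≃ₐ[LaurentSeries K] rootField (K := K) m) := by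
  have : NeZero ((m : ℕ) : K) := ⟨Nat.cast_ne_zero.2 m.ne_zero⟩
  obtain ⟨ζ, hζ⟩ := HasEnoughRootsOfUnity.exists_primitiveRoot K (m : ℕ)
  have hprim : (primitiveRoots (m : ℕ) (LaurentSeries K)).Nonempty :=
    ⟨_, (mem_primitiveRoots m.pos).2
      (hζ.map_of_injective (algebraMap K (LaurentSeries K)).injective)⟩
  set α : rootField (K := K) m := ⟨rootVar m, mem_adjoin_simple_self _ _⟩
  have hα : α ^ Module.finrank (LaurentSeries K) (rootField (K := K) m) =
      algebraMap (LaurentSeries K) (rootField (K := K) m) (HahnSeries.single 1 1) := by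
    rw [finrank_rootField]
    exact Subtype.ext (rootVar_pow m)
  have htop : (LaurentSeries K)⟮α⟯ = ⊤ := by
    refine lift_injective _ ?_
    rw [lift_adjoin_simple, lift_top]
    rfl
  have hprim' := finrank_rootField (K := K) m ▸ hprim
  have hsplit := isSplittingField_X_pow_sub_C_of_root_adjoin_eq_top hprim' hα htop
  rw [finrank_rootField] at hsplit
  have hirr : Irreducible (X ^ (m : ℕ) - C (HahnSeries.single 1 1) : (LaurentSeries K)[X]) :=
    minpoly_rootVar (K := K) m ▸ minpoly.irreducible (isIntegral_rootVar m)
  have : NeZero (m : ℕ) := ⟨m.ne_zero⟩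
  exact ⟨isGalois_of_isSplittingField_X_pow_sub_C hprim hirr _,
    isCyclic_of_isSplittingField_X_pow_sub_C hprim hirr _⟩

theorem subgroup_eq_of_card_eq {G : Type*} [Group G] [Finite G] [IsCyclic G] (H H' : Subgroup G)
    (h : Nat.card H = Nat.card H') : H = H' := by
  classical
  let := Fintype.ofFinite G
  have key : ∀ J : Subgroup G, Finset.univ.filter (· ∈ J) =
      Finset.univ.filter fun a : G => a ^ Nat.card J = 1 := fun J => by
    refine Finset.eq_of_subset_of_card_le (fun a ha => ?_) ?_
    · simp only [Finset.mem_filter, Finset.mem_univ, true_and] at ha ⊢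
      exact (SubgroupClass.coe_pow (⟨a, ha⟩ : J) _).symm.trans
        (congrArg Subtype.val pow_card_eq_one')
    · refine (IsCyclic.card_pow_eq_one_le Nat.card_pos).trans (le_of_eq ?_)
      rw [Nat.card_eq_fintype_card, Fintype.card_subtype]
  ext a
  have h1 := Finset.ext_iff.1 (key H) a
  have h2 := Finset.ext_iff.1 (key H') a
  simp only [Finset.mem_filter, Finset.mem_univ, true_and] at h1 h2
  rw [h1, h2, h]

/-- **Uniqueness**: the only intermediate field of degree `n`. -/
theorem eq_rootField [IsAlgClosed K] [CharZero K]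
    (E : IntermediateField (LaurentSeries K) (puiseuxField K))
    [FiniteDimensional (LaurentSeries K) E] {n : ℕ+}
    (hn : Module.finrank (LaurentSeries K) E = n) : E = rootField n := by
  -- `E` lies in some `K((t ^ (1/m)))`
  set b := Module.finBasis (LaurentSeries K) E
  obtain ⟨m, hm⟩ := exists_common Finset.univ fun i => ((b i : E) : puiseuxField K)
  have hle : E ≤ rootField (m * n) := fun x hx => by
    have hmem : ∀ i, ((b i : E) : puiseuxField K) ∈ rootField (m * n) := fun i => by
      obtain ⟨y, hy⟩ := range_puiseuxEmbedding_mul (n := n) (hm i (Finset.mem_univ i))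
      exact hy ▸ puiseuxEmbedding_mem_rootField _ y
    have h := congrArg (fun z : E => (z : puiseuxField K)) (b.sum_repr ⟨x, hx⟩)
    simp only at h
    rw [← h, IntermediateField.coe_sum]
    exact sum_mem fun i _ => by
      rw [IntermediateField.coe_smul, Algebra.smul_def]
      exact mul_mem (IntermediateField.algebraMap_mem _ _) (hmem i)
  have hle' : rootField (K := K) n ≤ rootField (m * n) := mul_comm n m ▸ rootField_le_mul n m
  obtain ⟨hgal, hcyc⟩ := isGalois_rootField (K := K) (m * n)
  have hcard : ∀ (F : IntermediateField (LaurentSeries K) (puiseuxField K))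
      (h : F ≤ rootField (m * n)), Module.finrank (LaurentSeries K) F = n →
        Nat.card (IntermediateField.restrict h).fixingSubgroup = m := fun F h hF => by
    rw [IsGalois.card_fixingSubgroup_eq_finrank]
    have h1 := Module.finrank_mul_finrank (LaurentSeries K) (IntermediateField.restrict h)
      (rootField (K := K) (m * n))
    rw [← (IntermediateField.restrictAlgEquiv h).toLinearEquiv.finrank_eq, hF, finrank_rootField,
      PNat.mul_coe, mul_comm (m : ℕ)] at h1
    exact Nat.eq_of_mul_eq_mul_left n.pos h1
  have h := congrArg IntermediateField.fixedField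
    (subgroup_eq_of_card_eq _ _ ((hcard E hle hn).trans (hcard _ hle' (finrank_rootField n)).symm))
  rw [IsGalois.fixedField_fixingSubgroup, IsGalois.fixedField_fixingSubgroup] at h
  rw [← IntermediateField.lift_restrict hle, h, IntermediateField.lift_restrict]

/-- **Structure**: every finite extension is `K((t ^ (1/n)))`, cyclic. -/
theorem finite_extension [IsAlgClosed K] [CharZero K] (F : Type*) [Field F]
    [Algebra (LaurentSeries K) F] [FiniteDimensional (LaurentSeries K) F] :
    ∃ n : ℕ+, Module.finrank (LaurentSeries K) F = n ∧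
      Nonempty (F ≃ₐ[LaurentSeries K] rootField (K := K) n) ∧
      IsGalois (LaurentSeries K) F ∧ IsCyclic (F ≃ₐ[LaurentSeries K] F) := by
  have := isAlgClosed_puiseuxField (K := K)
  let φ : F →ₐ[LaurentSeries K] puiseuxField K := IsAlgClosed.lift
  let e : F ≃ₐ[LaurentSeries K] φ.fieldRange := AlgEquiv.ofInjectiveField φ
  have : FiniteDimensional (LaurentSeries K) φ.fieldRange := e.toLinearEquiv.finiteDimensional
  refine ⟨⟨_, Module.finrank_pos (R := LaurentSeries K) (M := F)⟩, rfl, ?_⟩
  set n : ℕ+ := ⟨_, Module.finrank_pos (R := LaurentSeries K) (M := F)⟩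
  have he : φ.fieldRange = rootField n := eq_rootField _ e.toLinearEquiv.finrank_eq.symm
  let e' : F ≃ₐ[LaurentSeries K] rootField (K := K) n :=
    e.trans (IntermediateField.equivOfEq he)
  obtain ⟨hgal, hcyc⟩ := isGalois_rootField (K := K) n
  exact ⟨⟨e'⟩, IsGalois.of_algEquiv e'.symm,
    isCyclic_of_surjective e'.symm.autCongr.toMonoidHom e'.symm.autCongr.surjective⟩

end Fermat.Agent.NewtonPuiseux
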