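import Mathlib

/-!
# Lifting coprime factorisations to power series

A factorisation of the reduction of a monic polynomial over `K⟦t⟧` into coprime monic factors
lifts (Hensel), by solving for the coefficients of the powers of `t` one at a time.
-/

set_option autoImplicit false

noncomputable section

open Polynomial

namespace Fermat.Agent.NewtonPuiseux

variable {K : Type*} [Field K]

/-- `K⟦t⟧[Y] → K[Y]⟦t⟧`. -/
def layers : (PowerSeries K)[X] →+* PowerSeries K[X] :=
  eval₂RingHom (PowerSeries.map C) (PowerSeries.C X)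

theorem coeff_layers (f : (PowerSeries K)[X]) (k i : ℕ) :
    (PowerSeries.coeff k (layers f)).coeff i = PowerSeries.coeff k (f.coeff i) := by
  induction f using Polynomial.induction_on' with
  | add p q hp hq => simp [hp, hq]
  | monomial m c =>
    simp only [layers, coe_eval₂RingHom, eval₂_monomial, ← map_pow, PowerSeries.coeff_mul_C,
      PowerSeries.coeff_map, coeff_C_mul_X_pow, Polynomial.coeff_monomial]
    split_ifs <;> simp_all

theorem layers_injective : Function.Injective (layers (K := K)) := fun f g h => by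
  refine Polynomial.ext fun i => PowerSeries.ext fun k => ?_
  rw [← coeff_layers, h, coeff_layers]

/-- Bounded layers come from a polynomial. -/
theorem exists_layers_eq {d : ℕ} (G : PowerSeries K[X])
    (hG : ∀ k, (PowerSeries.coeff k G).natDegree ≤ d) :
    ∃ g : (PowerSeries K)[X], layers g = G ∧ g.natDegree ≤ d := by
  set g : (PowerSeries K)[X] := ∑ i ∈ Finset.range (d + 1),
    monomial i (PowerSeries.mk fun k => (PowerSeries.coeff k G).coeff i)
  have hc : ∀ i, g.coeff i = if i ∈ Finset.range (d + 1)
      then PowerSeries.mk (fun k => (PowerSeries.coeff k G).coeff i) else 0 := fun i => by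
    simp only [g, finsetSum_coeff, coeff_monomial, Finset.sum_ite_eq']
  refine ⟨g, PowerSeries.ext fun k => Polynomial.ext fun i => ?_,
    natDegree_le_iff_coeff_eq_zero.2 fun i hi => by
      rw [hc, if_neg (by simp only [Finset.mem_range]; omega)]⟩
  rw [coeff_layers, hc]
  split_ifs with h
  · rw [PowerSeries.coeff_mk]
  · rw [map_zero, coeff_eq_zero_of_natDegree_lt ((hG k).trans_lt (by
      simp only [Finset.mem_range] at h; omega))]

/-- One step: `a h + b g = e` with `g` reduced modulo `a`. -/
theorem exists_step {a b e : K[X]} (ha : a.Monic) (hb : b ≠ 0) (hab : IsCoprime a b)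
    (he : e.degree < (a * b).degree) :
    ∃ gh : K[X] × K[X], a * gh.2 + b * gh.1 = e ∧ gh.1.degree < a.degree ∧
      gh.2.degree < b.degree := by
  obtain ⟨u, v, huv⟩ := hab
  set g := v * e %ₘ a
  set h := (e - b * g) /ₘ a
  have hdvd : a ∣ e - b * g := ⟨u * e + b * (v * e /ₘ a), by
    have := modByMonic_add_div (v * e) a
    linear_combination (-b) * this - e * huv⟩
  have heq : a * h + b * g = e := by
    have := modByMonic_add_div (e - b * g) a
    rw [(modByMonic_eq_zero_iff_dvd ha).2 hdvd, zero_add] at this
    linear_combination this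
  have hg : g.degree < a.degree := degree_modByMonic_lt _ ha
  refine ⟨(g, h), heq, hg, ?_⟩
  have hab' : (a * b).degree = a.degree + b.degree := degree_mul
  have h1 : (a * h).degree < (a * b).degree := by
    rw [show a * h = e - b * g by linear_combination heq]
    refine (degree_sub_le _ _).trans_lt (max_lt he ?_)
    rw [hab', degree_mul, add_comm]
    exact WithBot.add_lt_add_right (degree_ne_bot.2 hb) hg
  rw [hab', degree_mul] at h1
  exact (WithBot.add_lt_add_iff_left (degree_ne_bot.2 ha.ne_zero)).1 h1

/-- The layers of the factors. -/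
theorem exists_factor_layers (F : ℕ → K[X]) {a b : K[X]} (ha : a.Monic) (hb : b ≠ 0)
    (hab : IsCoprime a b) (hF0 : F 0 = a * b)
    (hF : ∀ k, (F (k + 1)).degree < (a * b).degree) :
    ∃ G H : ℕ → K[X], G 0 = a ∧ H 0 = b ∧
      (∀ k, (G (k + 1)).degree < a.degree ∧ (H (k + 1)).degree < b.degree) ∧
      ∀ k, ∑ ij ∈ Finset.HasAntidiagonal.antidiagonal k, G ij.1 * H ij.2 = F k := by
  classical
  set next : ℕ → (ℕ → K[X] × K[X]) → K[X] × K[X] := fun k P =>
    if h : ∃ gh : K[X] × K[X],
        a * gh.2 + b * gh.1 = F (k + 1) - ∑ i ∈ Finset.range k, (P (i + 1)).1 * (P (k - i)).2 ∧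
        gh.1.degree < a.degree ∧ gh.2.degree < b.degree then h.choose else (0, 0) with hnext
  let seq : ℕ → ℕ → K[X] × K[X] := fun N => Nat.rec (fun _ => (a, b))
    (fun k P => Function.update P (k + 1) (next k P)) N
  have hseq : ∀ M k, k ≤ M → seq M k = seq k k := by
    intro M
    induction M with
    | zero => intro k hk; rw [Nat.le_zero.1 hk]
    | succ M ih =>
      intro k hk
      rcases eq_or_lt_of_le hk with rfl | h
      · rfl
      · rw [← ih k (by omega)]
        exact Function.update_of_ne (by omega) _ _
  set P : ℕ → K[X] × K[X] := fun k => seq k k with hP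
  have hstep : ∀ k, a * (P (k + 1)).2 + b * (P (k + 1)).1 =
      F (k + 1) - ∑ i ∈ Finset.range k, (P (i + 1)).1 * (P (k - i)).2 ∧
      (P (k + 1)).1.degree < a.degree ∧ (P (k + 1)).2.degree < b.degree := by
    intro k
    induction k using Nat.strong_induction_on with
    | _ k ih =>
    have e : P (k + 1) = next k (seq k) := Function.update_self _ _ _
    have esum : ∑ i ∈ Finset.range k, (seq k (i + 1)).1 * (seq k (k - i)).2 =
        ∑ i ∈ Finset.range k, (P (i + 1)).1 * (P (k - i)).2 :=
      Finset.sum_congr rfl fun i hi => by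
        rw [hseq k _ (by simpa using hi), hseq k _ (Nat.sub_le k i)]
    have hex := exists_step (e := F (k + 1) -
        ∑ i ∈ Finset.range k, (P (i + 1)).1 * (P (k - i)).2) ha hb hab (by
      refine (degree_sub_le _ _).trans_lt (max_lt (hF k) ?_)
      refine (degree_sum_le _ _).trans_lt ((Finset.sup_lt_iff (bot_lt_iff_ne_bot.2
        (degree_ne_bot.2 (mul_ne_zero ha.ne_zero hb)))).2 fun i hi => ?_)
      rw [Finset.mem_range] at hi
      have h1 := (ih i hi).2.1
      have h2 := (ih (k - i - 1) (by omega)).2.2
      rw [show k - i - 1 + 1 = k - i by omega] at h2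
      rw [degree_mul, degree_mul]
      exact (add_le_add le_rfl h2.le).trans_lt
        (WithBot.add_lt_add_right (degree_ne_bot.2 hb) h1))
    rw [e, hnext]
    simp only [esum]
    rw [dif_pos hex]
    exact hex.choose_spec
  refine ⟨fun k => (P k).1, fun k => (P k).2, rfl, rfl, fun k => (hstep k).2, fun k => ?_⟩
  rcases k with _ | k
  · simp [hF0, P, seq]
  rw [Finset.Nat.sum_antidiagonal_eq_sum_range_succ (fun i j => (P i).1 * (P j).2),
    Finset.sum_range_succ', Finset.sum_range_succ, Nat.sub_self, Nat.sub_zero,
    show (P 0).1 = a from rfl, show (P 0).2 = b from rfl]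
  have := (hstep k).1
  simp only [Nat.add_sub_add_right]
  linear_combination this

/-- **Hensel's lemma for factorisations over `K⟦t⟧`.** -/
theorem exists_lift_factors {f : (PowerSeries K)[X]} (hf : f.Monic) {a b : K[X]} (ha : a.Monic)
    (hb : b.Monic) (hab : IsCoprime a b) (he : f.map PowerSeries.constantCoeff = a * b) :
    ∃ g h : (PowerSeries K)[X], g.Monic ∧ h.Monic ∧ g * h = f ∧
      g.map PowerSeries.constantCoeff = a ∧ h.map PowerSeries.constantCoeff = b := by
  have hn : f.natDegree = a.natDegree + b.natDegree := by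
    rw [← hf.natDegree_map PowerSeries.constantCoeff, he, natDegree_mul ha.ne_zero hb.ne_zero]
  have hab' : (a * b).degree = (f.natDegree : WithBot ℕ) := by
    rw [degree_eq_natDegree (mul_ne_zero ha.ne_zero hb.ne_zero),
      natDegree_mul ha.ne_zero hb.ne_zero, hn]
  have hlayer : ∀ q : (PowerSeries K)[X],
      PowerSeries.coeff 0 (layers q) = q.map PowerSeries.constantCoeff := fun q =>
    Polynomial.ext fun i => by
      rw [coeff_layers, Polynomial.coeff_map, PowerSeries.coeff_zero_eq_constantCoeff_apply]
  obtain ⟨G, H, hG0, hH0, hdeg, hsum⟩ := exists_factor_layers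
    (fun k => PowerSeries.coeff k (layers f)) ha hb.ne_zero hab (by rw [hlayer, he]) fun k => by
      rw [hab', degree_lt_iff_coeff_zero]
      intro i hi
      rw [coeff_layers]
      rcases eq_or_lt_of_le hi with rfl | h
      · rw [hf.coeff_natDegree, PowerSeries.coeff_one, if_neg k.succ_ne_zero]
      · rw [coeff_eq_zero_of_natDegree_lt h, map_zero]
  -- the factors
  have hmk : ∀ (c : K[X]) (S : ℕ → K[X]), c.Monic → S 0 = c →
      (∀ k, (S (k + 1)).degree < c.degree) → ∃ g : (PowerSeries K)[X],
        layers g = PowerSeries.mk S ∧ g.Monic ∧ g.map PowerSeries.constantCoeff = c := by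
    intro c S hc hS0 hS
    obtain ⟨g, hg, hgd⟩ := exists_layers_eq (d := c.natDegree) (PowerSeries.mk S) fun k => by
      rw [PowerSeries.coeff_mk]
      rcases k with _ | k
      · rw [hS0]
      · exact natDegree_le_natDegree (hS k).le
    have hgk : ∀ k i, PowerSeries.coeff k (g.coeff i) = (S k).coeff i := fun k i => by
      rw [← coeff_layers, hg, PowerSeries.coeff_mk]
    refine ⟨g, hg, monic_of_natDegree_le_of_coeff_eq_one _ hgd (PowerSeries.ext fun k => ?_), ?_⟩
    · rw [hgk, PowerSeries.coeff_one]
      rcases k with _ | k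
      · rw [hS0, if_pos rfl, hc.coeff_natDegree]
      · rw [if_neg k.succ_ne_zero,
          coeff_eq_zero_of_degree_lt ((hS k).trans_le degree_le_natDegree)]
    · rw [← hlayer, hg, PowerSeries.coeff_mk, hS0]
  obtain ⟨g, hg, hgm, hga⟩ := hmk a G ha hG0 fun k => (hdeg k).1
  obtain ⟨h, hh, hhm, hhb⟩ := hmk b H hb hH0 fun k => (hdeg k).2
  refine ⟨g, h, hgm, hhm, layers_injective (PowerSeries.ext fun k => ?_), hga, hhb⟩
  rw [map_mul, hg, hh, PowerSeries.coeff_mul, ← hsum k]
  simp only [PowerSeries.coeff_mk]

end Fermat.Agent.NewtonPuiseux
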