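import Mathlib

/-!
# Substituting powers of the variable in Laurent series
-/

set_option autoImplicit false

noncomputable section

open scoped LaurentSeries

namespace Fermat.Agent.NewtonPuiseux

variable {K : Type*} [Field K]

/-- `t ↦ t ^ q`. -/
def expandLaurent (q : ℕ+) : LaurentSeries K →+* LaurentSeries K :=
  HahnSeries.embDomainRingHom (AddMonoidHom.mulLeft ((q : ℕ) : ℤ))
    (fun _ _ h => mul_left_cancel₀ (Int.natCast_ne_zero.2 q.ne_zero) h)
    fun _ _ => mul_le_mul_iff_of_pos_left (Int.natCast_pos.2 q.pos)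

/-- `t ↦ t ^ (1 / m)`, into Hahn series with rational exponents. -/
def rootEmbedding (m : ℕ+) : LaurentSeries K →+* HahnSeries ℚ K :=
  HahnSeries.embDomainRingHom
    ((AddMonoidHom.mulRight ((m : ℕ) : ℚ)⁻¹).comp (Int.castAddHom ℚ))
    (fun _ _ h => Int.cast_injective (mul_right_cancel₀
      (inv_ne_zero (Nat.cast_ne_zero.2 m.ne_zero)) h))
    fun _ _ => (mul_le_mul_iff_of_pos_right (inv_pos.2 (Nat.cast_pos.2 m.pos))).trans Int.cast_le

theorem coeff_expandLaurent_mul (q : ℕ+) (x : LaurentSeries K) (j : ℤ) :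
    (expandLaurent q x).coeff (q * j) = x.coeff j :=
  HahnSeries.embDomain_coeff

theorem coeff_expandLaurent_of_not_dvd (q : ℕ+) (x : LaurentSeries K) {j : ℤ}
    (h : ¬ (q : ℤ) ∣ j) : (expandLaurent q x).coeff j = 0 :=
  HahnSeries.embDomain_of_notMem_range fun ⟨i, hi⟩ => h ⟨i, hi.symm⟩

theorem coeff_rootEmbedding (m : ℕ+) (x : LaurentSeries K) (j : ℤ) :
    (rootEmbedding m x).coeff (j * ((m : ℕ) : ℚ)⁻¹) = x.coeff j :=
  HahnSeries.embDomain_coeff

theorem expandLaurent_single (q : ℕ+) (j : ℤ) (c : K) :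
    expandLaurent q (HahnSeries.single j c) = HahnSeries.single ((q : ℤ) * j) c :=
  HahnSeries.embDomain_single

theorem rootEmbedding_single (m : ℕ+) (j : ℤ) (c : K) :
    rootEmbedding m (HahnSeries.single j c) = HahnSeries.single ((j : ℚ) * ((m : ℕ) : ℚ)⁻¹) c :=
  HahnSeries.embDomain_single

theorem embDomain_embDomain {Γ Γ' Γ'' : Type*} [PartialOrder Γ] [PartialOrder Γ']
    [PartialOrder Γ''] (f : Γ ↪o Γ') (g : Γ' ↪o Γ'') (x : HahnSeries Γ K) :
    HahnSeries.embDomain g (HahnSeries.embDomain f x) = HahnSeries.embDomain (f.trans g) x := by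
  ext c
  by_cases h : c ∈ Set.range (f.trans g)
  · obtain ⟨a, rfl⟩ := h
    rw [HahnSeries.embDomain_coeff,
      show (f.trans g) a = g (f a) from rfl, HahnSeries.embDomain_coeff,
      HahnSeries.embDomain_coeff]
  · rw [HahnSeries.embDomain_of_notMem_range h]
    by_cases h' : c ∈ Set.range g
    · obtain ⟨b, rfl⟩ := h'
      rw [HahnSeries.embDomain_coeff, HahnSeries.embDomain_of_notMem_range]
      rintro ⟨a, rfl⟩
      exact h ⟨a, rfl⟩
    · exact HahnSeries.embDomain_of_notMem_range h'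

theorem embDomain_congr {Γ Γ' : Type*} [PartialOrder Γ] [PartialOrder Γ'] {f g : Γ ↪o Γ'}
    (h : ∀ a, f a = g a) (x : HahnSeries Γ K) :
    HahnSeries.embDomain f x = HahnSeries.embDomain g x := by
  rw [show f = g from RelEmbedding.ext h]

theorem expandLaurent_expandLaurent (p q : ℕ+) (x : LaurentSeries K) :
    expandLaurent p (expandLaurent q x) = expandLaurent (q * p) x :=
  (embDomain_embDomain _ _ x).trans (embDomain_congr (fun a => by
    show ((p : ℕ) : ℤ) * (((q : ℕ) : ℤ) * a) = ((q * p : ℕ+) : ℕ) * a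
    push_cast
    ring) x)

theorem rootEmbedding_expandLaurent (m q : ℕ+) (x : LaurentSeries K) :
    rootEmbedding (m * q) (expandLaurent q x) = rootEmbedding m x :=
  (embDomain_embDomain _ _ x).trans (embDomain_congr (fun a => by
    show ((((q : ℕ) : ℤ) * a : ℤ) : ℚ) * (((m * q : ℕ+) : ℕ) : ℚ)⁻¹ = (a : ℚ) * ((m : ℕ) : ℚ)⁻¹
    have hm : ((m : ℕ) : ℚ) ≠ 0 := Nat.cast_ne_zero.2 m.ne_zero
    have hq : ((q : ℕ) : ℚ) ≠ 0 := Nat.cast_ne_zero.2 q.ne_zero
    push_cast
    field_simp) x)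

/-- Series without negative exponents are power series. -/
theorem exists_ofPowerSeries {x : LaurentSeries K} (h : ∀ j : ℤ, j < 0 → x.coeff j = 0) :
    ∃ y : PowerSeries K, HahnSeries.ofPowerSeries ℤ K y = x := by
  refine ⟨PowerSeries.mk fun n => x.coeff n, ?_⟩
  ext j
  rcases Int.lt_or_le j 0 with hj | hj
  · rw [h j hj, HahnSeries.ofPowerSeries_apply, HahnSeries.embDomain_of_notMem_range]
    rintro ⟨n, hn⟩
    have : (0 : ℤ) ≤ j := hn ▸ Int.natCast_nonneg n
    omega
  · lift j to ℕ using hj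
    rw [HahnSeries.ofPowerSeries_apply_coeff, PowerSeries.coeff_mk]

end Fermat.Agent.NewtonPuiseux
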