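import Fermat.Agent.NewtonPuiseux.Hensel
import Fermat.Agent.NewtonPuiseux.Substitution

/-!
# The Newton–Puiseux theorem

Over an algebraically closed field of characteristic zero every nonconstant polynomial over
`K((t))` has a root, and so splits, after some substitution `t ↦ t ^ m`.
-/

set_option autoImplicit false

noncomputable section

open Polynomial

namespace Fermat.Agent.NewtonPuiseux

variable {K : Type*} [Field K]

/-- The subleading coefficient after a shift. -/
theorem coeff_pred_comp {R : Type*} [CommRing R] {f : R[X]} (hf : f.Monic) {n : ℕ}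
    (hn : f.natDegree = n + 1) (r : R) :
    (taylor r f).coeff n = f.coeff n + (n + 1) * r := by
  rw [taylor_coeff]
  have hd : (hasseDeriv n f).natDegree ≤ 1 := (natDegree_hasseDeriv_le f n).trans (by omega)
  have h1 : f.coeff (n + 1) = 1 := by rw [← hn, hf.coeff_natDegree]
  rw [eq_X_add_C_of_natDegree_le_one hd]
  simp [hasseDeriv_coeff, h1, add_comm 1 n]
  ring

/-- A monic polynomial with a coprime factorisation at every level: one step of the descent. -/
theorem exists_smaller_factor [IsAlgClosed K] [CharZero K] {n : ℕ} (hn : 2 ≤ n)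
    {g : (PowerSeries K)[X]} (hg : g.Monic) (hgd : g.natDegree = n)
    (hsub : g.coeff (n - 1) = 0) {i : ℕ} (hi : i < n)
    (hne : PowerSeries.constantCoeff (g.coeff i) ≠ 0) :
    ∃ g₁ g₂ : (PowerSeries K)[X], g₁.Monic ∧ g₁ * g₂ = g ∧ 0 < g₁.natDegree ∧
      g₁.natDegree < n := by
  set r := g.map PowerSeries.constantCoeff with hr
  have hrm : r.Monic := hg.map _
  have hrd : r.natDegree = n := by rw [hr, hg.natDegree_map, hgd]
  obtain ⟨c, hc⟩ := IsAlgClosed.exists_root r (by
    rw [degree_eq_natDegree hrm.ne_zero, hrd]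
    exact_mod_cast (show n ≠ 0 by omega))
  obtain ⟨b, hb⟩ := pow_rootMultiplicity_dvd r c
  set k := r.rootMultiplicity c
  have hk : 0 < k := (rootMultiplicity_pos hrm.ne_zero).2 hc
  have hbm : b.Monic := ((monic_X_sub_C c).pow k).of_mul_monic_left (hb ▸ hrm)
  have hdeg : k + b.natDegree = n := by
    rw [← hrd, hb, ((monic_X_sub_C c).pow k).natDegree_mul hbm, natDegree_pow, natDegree_X_sub_C,
      mul_one]
  have hcop : IsCoprime ((X - C c) ^ k) b := by
    refine IsCoprime.pow_left ((irreducible_X_sub_C c).coprime_iff_not_dvd.2 fun hd => ?_)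
    obtain ⟨b', rfl⟩ := hd
    refine absurd ((le_rootMultiplicity_iff hrm.ne_zero).2 (show (X - C c) ^ (k + 1) ∣ r from
      ⟨b', by rw [hb]; ring⟩)) (by omega)
  have hkn : k < n := by
    refine lt_of_le_of_ne (by omega) fun hkn => hne ?_
    obtain rfl : b = 1 := eq_one_of_monic_natDegree_zero hbm (by omega)
    rw [mul_one, hkn] at hb
    have h1 := congrArg (fun q => q.coeff (n - 1)) hb
    simp only [hr, coeff_map, hsub, map_zero, sub_eq_add_neg, ← C_neg, coeff_X_add_C_pow,
      show n - (n - 1) = 1 by omega, pow_one, Nat.choose_symm (show 1 ≤ n by omega),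
      Nat.choose_one_right] at h1
    have hc0 : c = 0 := by
      rcases mul_eq_zero.1 h1.symm with h | h
      · exact neg_eq_zero.1 h
      · exact absurd (Nat.cast_eq_zero.1 h) (by omega)
    have h2 := congrArg (fun q => q.coeff i) hb
    simp only [hr, coeff_map, hc0, C_0, sub_zero, coeff_X_pow, if_neg hi.ne] at h2
    exact h2
  obtain ⟨g₁, g₂, h1m, -, h12, h1r, -⟩ :=
    exists_lift_factors hg ((monic_X_sub_C c).pow k) hbm hcop (hr.symm.trans hb)
  have : g₁.natDegree = k := by
    rw [← h1m.natDegree_map PowerSeries.constantCoeff, h1r, natDegree_pow, natDegree_X_sub_C,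
      mul_one]
  exact ⟨g₁, g₂, h1m, h12, by omega, by omega⟩

/-- **Newton and Puiseux**: a root after a substitution. -/
theorem exists_root_expand [IsAlgClosed K] [CharZero K] (f : (LaurentSeries K)[X]) (hf : f.Monic)
    (hd : 0 < f.natDegree) : ∃ (m : ℕ+) (x : LaurentSeries K),
      (f.map (expandLaurent m)).IsRoot x := by
  induction hn : f.natDegree using Nat.strong_induction_on generalizing f with
  | _ n ih =>
  obtain rfl | hn2 : n = 1 ∨ 2 ≤ n := by omega
  · refine ⟨1, -expandLaurent 1 (f.coeff 0), ?_⟩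
    rw [hf.eq_X_add_C hn, Polynomial.map_add, map_X, map_C, IsRoot]
    simp
  -- remove the subleading coefficient
  obtain ⟨n', rfl⟩ : ∃ k, n = k + 1 := ⟨n - 1, by omega⟩
  set s : LaurentSeries K := -f.coeff n' / (n' + 1) with hs
  set f₁ := taylor s f with hf₁
  have hf₁d : f₁.natDegree = n' + 1 := by rw [hf₁, natDegree_taylor, hn]
  have hf₁m : f₁.Monic := by
    rw [Monic, leadingCoeff, hf₁d, hf₁, ← hn, coeff_taylor_natDegree, hf.leadingCoeff]
  have hf₁s : f₁.coeff n' = 0 := by
    have : CharZero (LaurentSeries K) :=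
      charZero_of_injective_algebraMap (algebraMap K (LaurentSeries K)).injective
    rw [hf₁, coeff_pred_comp hf hn, hs, mul_div_cancel₀ _ (Nat.cast_add_one_ne_zero n'),
      add_neg_cancel]
  suffices h : ∃ (m : ℕ+) (x : LaurentSeries K), (f₁.map (expandLaurent m)).IsRoot x by
    obtain ⟨m, x, hx⟩ := h
    refine ⟨m, x + expandLaurent m s, ?_⟩
    rwa [hf₁, IsRoot, eval_map, taylor_apply, eval₂_comp, eval₂_add, eval₂_X, eval₂_C,
      ← eval_map] at hx
  by_cases h0 : ∀ i < n' + 1, f₁.coeff i = 0
  · refine ⟨1, 0, ?_⟩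
    rw [IsRoot, ← coeff_zero_eq_eval_zero, coeff_map, h0 0 (by omega), map_zero]
  push Not at h0
  -- the steepest slope
  classical
  obtain ⟨i₀, hi₀, hmin⟩ := ((Finset.range (n' + 1)).filter fun i => f₁.coeff i ≠ 0)
    |>.exists_min_image
    (fun i => ((f₁.coeff i).order : ℚ) / ((n' + 1 - i : ℕ) : ℚ))
    (by obtain ⟨i, hi, hne⟩ := h0; exact ⟨i, by simp [hne, hi]⟩)
  simp only [Finset.mem_filter, Finset.mem_range] at hi₀
  set w : ℤ := (f₁.coeff i₀).order
  set q : ℕ+ := ⟨n' + 1 - i₀, by omega⟩ with hq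
  set f₂ := (f₁.map (expandLaurent q)).scaleRoots (HahnSeries.single (-w) 1) with hf₂
  have hf₂d : f₂.natDegree = n' + 1 := by
    rw [hf₂, natDegree_scaleRoots, hf₁m.natDegree_map, hf₁d]
  have hc : ∀ i j, (f₂.coeff i).coeff j =
      (expandLaurent q (f₁.coeff i)).coeff (j + ((n' + 1 - i : ℕ) : ℤ) * w) := fun i j => by
    rw [hf₂, coeff_scaleRoots, hf₁m.natDegree_map, hf₁d, coeff_map, HahnSeries.single_pow,
      one_pow]
    conv_lhs => rw [show j = (j + ((n' + 1 - i : ℕ) : ℤ) * w) + (n' + 1 - i) • (-w) by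
      rw [nsmul_eq_mul]; ring]
    rw [HahnSeries.coeff_mul_single_add, mul_one]
  have hint : ∀ i j, j < 0 → (f₂.coeff i).coeff j = 0 := fun i j hj => by
    rw [hc]
    rcases lt_or_ge i (n' + 1) with hi | hi
    · by_cases hne : f₁.coeff i = 0
      · rw [hne, map_zero, HahnSeries.coeff_zero]
      by_contra hcoeff
      obtain ⟨l, hl⟩ : (q : ℤ) ∣ j + ((n' + 1 - i : ℕ) : ℤ) * w :=
        by_contra fun h => hcoeff (coeff_expandLaurent_of_not_dvd q _ h)
      rw [hl, coeff_expandLaurent_mul] at hcoeff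
      have h1 := HahnSeries.order_le_of_coeff_ne_zero hcoeff
      have h2 := hmin i (by simp [hne, hi])
      rw [div_le_div_iff₀ (by exact_mod_cast (show 0 < n' + 1 - i₀ by omega))
        (by exact_mod_cast (show 0 < n' + 1 - i by omega))] at h2
      have h3 : w * ((n' + 1 - i : ℕ) : ℤ) ≤ (f₁.coeff i).order * ((n' + 1 - i₀ : ℕ) : ℤ) := by
        exact_mod_cast h2
      simp only [hq, PNat.mk_coe] at hl
      nlinarith
    · rw [Nat.sub_eq_zero_of_le hi, Nat.cast_zero, zero_mul, add_zero]
      rcases eq_or_lt_of_le hi with rfl | hi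
      · rw [← hf₁d, hf₁m.coeff_natDegree, map_one, HahnSeries.coeff_one, if_neg hj.ne]
      · rw [coeff_eq_zero_of_natDegree_lt (hf₁d ▸ hi), map_zero, HahnSeries.coeff_zero]
  choose y hy using fun i => exists_ofPowerSeries (hint i)
  obtain ⟨g, hg, -⟩ : ∃ g : (PowerSeries K)[X],
      g.map (HahnSeries.ofPowerSeries ℤ K) = f₂ ∧ True := by
    refine ⟨∑ i ∈ Finset.range (n' + 2), monomial i (y i), ?_, trivial⟩
    rw [Polynomial.map_sum]
    simp only [map_monomial, hy]
    exact (f₂.as_sum_range' _ (by omega)).symm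
  have hinj := HahnSeries.ofPowerSeries_injective (Γ := ℤ) (R := K)
  have hgm : g.Monic := monic_of_injective hinj (by
    rw [hg, hf₂, monic_scaleRoots_iff]; exact hf₁m.map _)
  have hgd : g.natDegree = n' + 1 := by
    rw [← natDegree_map_eq_of_injective hinj, hg, hf₂d]
  have hgc : ∀ i, HahnSeries.ofPowerSeries ℤ K (g.coeff i) = f₂.coeff i := fun i => by
    rw [← coeff_map, hg]
  obtain ⟨g₁, g₂, h1m, h12, h1pos, h1lt⟩ := exists_smaller_factor hn2 hgm hgd
    (hinj (by
      rw [hgc, hf₂, coeff_scaleRoots, coeff_map, show n' + 1 - 1 = n' from rfl, hf₁s, map_zero,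
        zero_mul, map_zero]))
    hi₀.1 (fun h => hi₀.2 (by
      have e := hc i₀ 0
      rw [← hgc, ← Nat.cast_zero, HahnSeries.ofPowerSeries_apply_coeff,
        PowerSeries.coeff_zero_eq_constantCoeff_apply, h, Nat.cast_zero, zero_add] at e
      have e' := coeff_expandLaurent_mul q (f₁.coeff i₀) w
      simp only [hq, PNat.mk_coe] at e'
      rw [← e] at e'
      exact HahnSeries.coeff_order_eq_zero.1 e'.symm))
  obtain ⟨m, x, hx⟩ := ih g₁.natDegree (by omega) (g₁.map (HahnSeries.ofPowerSeries ℤ K))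
    (h1m.map _) (by rwa [h1m.natDegree_map]) (h1m.natDegree_map _)
  refine ⟨q * m, expandLaurent m (HahnSeries.single w 1) * x, ?_⟩
  have hx2 : (f₂.map (expandLaurent m)).IsRoot x := by
    rw [← hg, ← h12, Polynomial.map_mul, Polynomial.map_mul]
    exact root_mul_right_of_isRoot _ hx
  have e : f₂.scaleRoots (HahnSeries.single w 1) = f₁.map (expandLaurent q) := by
    rw [hf₂, ← scaleRoots_mul, HahnSeries.single_mul_single, neg_add_cancel, one_mul,
      HahnSeries.single_zero_one, scaleRoots_one]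
  have h3 := scaleRoots_eval₂_eq_zero (p := f₂) (expandLaurent m) (r := x)
    (s := HahnSeries.single w 1) (by rw [← eval_map]; exact hx2)
  rw [e, eval₂_map] at h3
  rw [IsRoot, eval_map, show expandLaurent (q * m) = (expandLaurent m).comp (expandLaurent q) from
    RingHom.ext fun z => (expandLaurent_expandLaurent m q z).symm]
  exact h3

/-- **Newton and Puiseux**: splitting after a substitution. -/
theorem exists_splits_expand [IsAlgClosed K] [CharZero K] (f : (LaurentSeries K)[X]) :
    ∃ m : ℕ+, (f.map (expandLaurent m)).Splits := by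
  induction hn : f.natDegree using Nat.strong_induction_on generalizing f with
  | _ n ih =>
  rcases n.eq_zero_or_pos with rfl | hpos
  · exact ⟨1, Splits.of_natDegree_le_one (by
      rw [natDegree_map_eq_of_injective (expandLaurent (K := K) 1).injective, hn]; omega)⟩
  have hf0 : f ≠ 0 := fun h => by simp [h] at hn; omega
  obtain ⟨m, x, hx⟩ := exists_root_expand (f * C f.leadingCoeff⁻¹)
    (monic_mul_leadingCoeff_inv hf0) (by rwa [natDegree_mul_leadingCoeff_inv _ hf0, hn])
  rw [Polynomial.map_mul, map_C, IsRoot, eval_mul, eval_C, mul_eq_zero] at hx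
  have hx' : (f.map (expandLaurent m)).IsRoot x := hx.resolve_right (by simp [hf0])
  obtain ⟨b, hb⟩ := dvd_iff_isRoot.2 hx'
  have hbd : b.natDegree < n := by
    have h := congrArg natDegree hb
    rw [natDegree_map_eq_of_injective (expandLaurent (K := K) m).injective, hn,
      natDegree_mul (X_sub_C_ne_zero x) (right_ne_zero_of_mul
        (hb ▸ (Polynomial.map_ne_zero hf0 : f.map (expandLaurent m) ≠ 0))),
      natDegree_X_sub_C] at h
    omega
  obtain ⟨m', hm'⟩ := ih _ hbd b rfl
  refine ⟨m * m', ?_⟩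
  rw [show expandLaurent (m * m') = (expandLaurent m').comp (expandLaurent m) from
    RingHom.ext fun z => (expandLaurent_expandLaurent m' m z).symm, ← map_map, hb,
    Polynomial.map_mul]
  exact ((Splits.X_sub_C x).map _).mul hm'

end Fermat.Agent.NewtonPuiseux
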